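import Mathlib.Algebra.Order.BigOperators.Ring.Finset
import Mathlib.Analysis.Complex.ExponentialBounds
import Mathlib.Analysis.PSeries
import Mathlib.Analysis.SpecificLimits.Normed
import Mathlib.Data.Nat.Prime.Factorial
import Mathlib.NumberTheory.Harmonic.Bounds
import Mathlib.Tactic

/-!
# Pairwise coprime tuples in dyadic boxes

Among the tuples `≡ 1 (mod P!)` in a box, two given coordinates have a common prime, which exceeds
`P`, with proportion `O(1/P)` once the sides are long, so a positive proportion is pairwise coprime.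
-/

set_option autoImplicit false
set_option linter.style.haveILetI false

noncomputable section

open Filter
open scoped Classical Topology Nat

namespace FA.ToricCubic

/-- A set in an interval congruent modulo `m`. -/
theorem card_le_of_modEq {S : Finset ℕ} {a H m : ℕ} (hS : S ⊆ Finset.Ico a (a + H))
    (hmod : ∀ x ∈ S, ∀ y ∈ S, x ≡ y [MOD m]) : S.card ≤ H / m + 1 := by
  refine (Finset.card_le_card_of_injOn (fun n => (n - a) / m) (t := Finset.range (H / m + 1))
    (fun n hn => ?_) fun x hx y hy he => ?_).trans_eq (Finset.card_range _)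
  · obtain ⟨h1, h2⟩ := Finset.mem_Ico.mp (hS hn)
    exact Finset.mem_range.mpr (Nat.lt_succ_of_le (Nat.div_le_div_right (by omega)))
  · obtain ⟨h1, -⟩ := Finset.mem_Ico.mp (hS hx)
    obtain ⟨h1', -⟩ := Finset.mem_Ico.mp (hS hy)
    have h2 : (x - a) % m = (y - a) % m :=
      Nat.ModEq.add_left_cancel' a (by
        rw [Nat.add_sub_cancel' h1, Nat.add_sub_cancel' h1']; exact hmod x hx y hy)
    have h3 : x - a = y - a := by
      rw [← Nat.div_add_mod (x - a) m, ← Nat.div_add_mod (y - a) m, h2]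
      exact congrArg (fun q => m * q + (y - a) % m) he
    omega

/-- The dyadic interval in the class `1`. -/
def classBox (M k : ℕ) : Finset ℕ := (Finset.Ico (2 ^ k) (2 ^ k + 2 ^ k)).filter (· ≡ 1 [MOD M])

theorem le_card_classBox {M k : ℕ} (hM : 0 < M) : 2 ^ k / M ≤ (classBox M k).card := by
  set r := (1 + (M * 2 ^ k - 2 ^ k)) % M
  have hr : r < M := Nat.mod_lt _ hM
  have hmod : 2 ^ k + r ≡ 1 [MOD M] := by
    have h : 2 ^ k + r ≡ 1 + M * 2 ^ k [MOD M] := by
      refine (Nat.ModEq.add_left _ (Nat.mod_modEq _ M)).trans ?_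
      rw [show 2 ^ k + (1 + (M * 2 ^ k - 2 ^ k)) = 1 + M * 2 ^ k by
        have : 2 ^ k ≤ M * 2 ^ k := Nat.le_mul_of_pos_left _ hM
        omega]
    exact h.trans (by simp [Nat.ModEq, Nat.add_mul_mod_self_left])
  refine (Finset.card_range _).symm.trans_le
    (Finset.card_le_card_of_injOn (fun j => 2 ^ k + r + j * M) (fun j hj => ?_)
      fun x _ y _ he => ?_)
  · have hjlt : j < 2 ^ k / M := Finset.mem_range.mp hj
    refine Finset.mem_filter.mpr
      ⟨Finset.mem_Ico.mpr ⟨(Nat.le_add_right _ _).trans (Nat.le_add_right _ _), ?_⟩, ?_⟩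
    · have h1 : (j + 1) * M ≤ 2 ^ k :=
        le_trans (Nat.mul_le_mul_right _ hjlt) (Nat.div_mul_le_self _ _)
      rw [Nat.succ_mul] at h1
      show 2 ^ k + r + j * M < 2 ^ k + 2 ^ k
      omega
    · simpa [Nat.ModEq, Nat.add_mul_mod_self_right] using hmod
  · have h' : x * M = y * M := by simpa using he
    exact Nat.eq_of_mul_eq_mul_right hM h'

/-- The elements divisible by `p`. -/
theorem card_classBox_dvd {P p k : ℕ} (hp : p.Prime) (hP : P < p) :
    (((classBox P ! k).filter (p ∣ ·)).card : ℝ) ≤ (2 : ℝ) ^ k / (p * P !) + 1 := by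
  have hcop : Nat.Coprime p P ! :=
    hp.coprime_iff_not_dvd.mpr fun h => by
      have := (hp.dvd_factorial).mp h
      omega
  have h := card_le_of_modEq (S := (classBox P ! k).filter (p ∣ ·)) (a := 2 ^ k) (H := 2 ^ k)
    (m := p * P !)
    (fun x hx => (Finset.mem_filter.mp (Finset.mem_filter.mp hx).1).1) fun x hx y hy => by
      obtain ⟨hx1, hx2⟩ := Finset.mem_filter.mp hx
      obtain ⟨hy1, hy2⟩ := Finset.mem_filter.mp hy
      exact (Nat.modEq_and_modEq_iff_modEq_mul hcop).mp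
        ⟨(Nat.modEq_zero_iff_dvd.mpr hx2).trans (Nat.modEq_zero_iff_dvd.mpr hy2).symm,
          (Finset.mem_filter.mp hx1).2.trans (Finset.mem_filter.mp hy1).2.symm⟩
  calc (((classBox P ! k).filter (p ∣ ·)).card : ℝ) ≤ ((2 ^ k / (p * P !) + 1 : ℕ) : ℝ) := by
        exact_mod_cast h
    _ ≤ _ := by
        push_cast
        exact add_le_add (Nat.cast_div_le.trans_eq (by push_cast; rfl)) le_rfl

/-- The pairs with a common prime. -/
def badPairs (P a b : ℕ) : Finset (ℕ × ℕ) :=
  (classBox P ! a ×ˢ classBox P ! b).filter fun x => ¬x.1.Coprime x.2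

theorem not_dvd_of_mem_classBox {P k n p : ℕ} (hn : n ∈ classBox P ! k) (hp : p.Prime)
    (hpP : p ≤ P) : ¬p ∣ n := fun hd => by
  have h := ((Finset.mem_filter.mp hn).2.of_dvd (Nat.dvd_factorial hp.pos hpP))
  exact hp.not_dvd_one (h.dvd_iff dvd_rfl |>.mp hd)

/-- **The union bound over primes.** -/
theorem card_badPairs_le {P : ℕ} (hP : 0 < P) (a b : ℕ) (hba : b ≤ a) :
    ((badPairs P a b).card : ℝ) ≤ (2 : ℝ) ^ a * 2 ^ b / ((P ! : ℝ) ^ 2 * P) +
      2 * 2 ^ a / (P ! : ℝ) * (1 + Real.log ((2 : ℝ) ^ (b + 1))) + 2 * 2 ^ b := by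
  set S := (Finset.Ioc P (2 ^ (b + 1))).filter Nat.Prime
  have hsub : badPairs P a b ⊆ S.biUnion fun p =>
      (classBox P ! a).filter (p ∣ ·) ×ˢ (classBox P ! b).filter (p ∣ ·) := fun x hx => by
    obtain ⟨hx, hnc⟩ := Finset.mem_filter.mp hx
    obtain ⟨ha, hb⟩ := Finset.mem_product.mp hx
    obtain ⟨p, hp, h1, h2⟩ := Nat.Prime.not_coprime_iff_dvd.mp hnc
    have hxb := Finset.mem_Ico.mp (Finset.mem_filter.mp hb).1
    have hle : p ≤ 2 ^ (b + 1) := by
      have := Nat.le_of_dvd (lt_of_lt_of_le (Nat.two_pow_pos b) hxb.1) h2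
      rw [pow_succ]
      omega
    have hPp : P < p := not_le.mp fun hle => not_dvd_of_mem_classBox ha hp hle h1
    exact Finset.mem_biUnion.mpr ⟨p, Finset.mem_filter.mpr ⟨Finset.mem_Ioc.mpr ⟨hPp, hle⟩, hp⟩,
      Finset.mem_product.mpr ⟨Finset.mem_filter.mpr ⟨ha, h1⟩, Finset.mem_filter.mpr ⟨hb, h2⟩⟩⟩
  set M : ℝ := (P ! : ℝ) with hMdef
  have hM : 0 < M := by positivity
  have hab : (2 : ℝ) ^ b ≤ 2 ^ a := pow_le_pow_right₀ (by norm_num) hba
  calc ((badPairs P a b).card : ℝ)
      ≤ ∑ p ∈ S, ((((classBox P ! a).filter (p ∣ ·)).card : ℝ) *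
          ((classBox P ! b).filter (p ∣ ·)).card) := by
        refine le_trans
          (Nat.cast_le.mpr ((Finset.card_le_card hsub).trans Finset.card_biUnion_le)) ?_
        simp [Finset.card_product]
    _ ≤ ∑ p ∈ S, ((2 : ℝ) ^ a * 2 ^ b / M ^ 2 * ((p : ℝ) ^ 2)⁻¹ +
          2 * 2 ^ a / M * (p : ℝ)⁻¹ + 1) := Finset.sum_le_sum fun p hp => by
        obtain ⟨hp, hpr⟩ := Finset.mem_filter.mp hp
        have hPp := (Finset.mem_Ioc.mp hp).1
        have hp0 : (0 : ℝ) < p := Nat.cast_pos.mpr hpr.pos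
        refine (mul_le_mul (card_classBox_dvd hpr hPp) (card_classBox_dvd hpr hPp)
          (Nat.cast_nonneg _) (by positivity)).trans ?_
        have h3 : (2 : ℝ) ^ b / (p * M) ≤ 2 ^ a / (p * M) :=
          div_le_div_of_nonneg_right hab (by positivity)
        rw [← hMdef, show (2 : ℝ) ^ a * 2 ^ b / M ^ 2 * ((p : ℝ) ^ 2)⁻¹ =
          2 ^ a / (p * M) * (2 ^ b / (p * M)) by field_simp,
          show 2 * (2 : ℝ) ^ a / M * (p : ℝ)⁻¹ = 2 * (2 ^ a / (p * M)) by field_simp]
        nlinarith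
    _ ≤ _ := by
        rw [Finset.sum_add_distrib, Finset.sum_add_distrib, ← Finset.mul_sum, ← Finset.mul_sum,
          Finset.sum_const, nsmul_one]
        refine add_le_add (add_le_add ?_ ?_) ?_
        · rw [← div_div, div_eq_mul_inv ((2 : ℝ) ^ a * 2 ^ b / M ^ 2) (P : ℝ)]
          refine mul_le_mul_of_nonneg_left ?_ (by positivity)
          refine (Finset.sum_le_sum_of_subset_of_nonneg (Finset.filter_subset _ _)
            fun p _ _ => by positivity).trans ?_
          rcases le_or_gt P (2 ^ (b + 1)) with h | h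
          · exact (sum_Ioc_inv_sq_le_sub (α := ℝ) hP.ne' h).trans
              (sub_le_self _ (by positivity))
          · rw [Finset.Ioc_eq_empty (by omega), Finset.sum_empty]
            positivity
        · refine mul_le_mul_of_nonneg_left ?_ (by positivity)
          have hharm : ∑ p ∈ Finset.Icc (1 : ℕ) (2 ^ (b + 1)), (p : ℝ)⁻¹ ≤
              1 + Real.log ((2 ^ (b + 1) : ℕ) : ℝ) := by
            have := harmonic_le_one_add_log (2 ^ (b + 1))
            rw [harmonic_eq_sum_Icc] at this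
            push_cast at this
            simpa using this
          refine (Finset.sum_le_sum_of_subset_of_nonneg ?_ fun p _ _ => by positivity).trans
            (hharm.trans_eq (by push_cast; rfl))
          intro p hp
          obtain ⟨h1, h2⟩ := Finset.mem_Ioc.mp (Finset.mem_filter.mp hp).1
          exact Finset.mem_Icc.mpr ⟨by omega, h2⟩
        · calc (S.card : ℝ) ≤ ((2 ^ (b + 1) : ℕ) : ℝ) := Nat.cast_le.mpr
                ((Finset.card_filter_le _ _).trans (by rw [Nat.card_Ioc]; exact Nat.sub_le _ _))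
            _ = 2 * 2 ^ b := by push_cast; ring

/-- For long boxes the bad proportion is `≤ 8 / P`. -/
theorem eventually_badPairs_le {P : ℕ} (hP : 0 < P) :
    ∃ k₀ : ℕ, ∀ a b : ℕ, k₀ ≤ a → k₀ ≤ b →
      ((badPairs P a b).card : ℝ) ≤ 8 / P * ((classBox P ! a).card * (classBox P ! b).card) := by
  set M : ℝ := (P ! : ℝ) with hMdef
  have hM : 0 < M := by positivity
  have hP0 : (0 : ℝ) < P := Nat.cast_pos.mpr hP
  have hlim : Tendsto (fun b : ℕ => ((b : ℝ) + 2) / 2 ^ b) atTop (𝓝 0) := by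
    have h1 := tendsto_pow_const_div_const_pow_of_one_lt 1 (r := (2 : ℝ)) one_lt_two
    have h2 := (tendsto_pow_const_div_const_pow_of_one_lt 0 (r := (2 : ℝ)) one_lt_two).const_mul 2
    have h3 := h1.add h2
    rw [mul_zero, add_zero] at h3
    exact h3.congr fun b => by ring
  obtain ⟨k₁, hk₁⟩ := eventually_atTop.mp
    (hlim.eventually (Iio_mem_nhds (show (0 : ℝ) < 1 / (M ^ 2 * P * (4 / M + 2)) by positivity)))
  refine ⟨max k₁ (2 * P !), ?_⟩
  have hsize : ∀ k, max k₁ (2 * P !) ≤ k → (2 : ℝ) ^ k / (2 * M) ≤ (classBox P ! k).card :=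
    fun k hk => by
    refine le_trans ?_ (Nat.cast_le.mpr (le_card_classBox (Nat.factorial_pos P)))
    have h2 : 2 * P ! ≤ 2 ^ k := le_trans ((le_max_right _ _).trans hk) Nat.lt_two_pow_self.le
    have hq : 2 ^ k ≤ 2 * P ! * (2 ^ k / P !) := by
      have h4 := Nat.div_add_mod (2 ^ k) P !
      have h5 := Nat.mod_lt (2 ^ k) (Nat.factorial_pos P)
      have h6 : 2 * P ! * (2 ^ k / P !) = P ! * (2 ^ k / P !) + P ! * (2 ^ k / P !) := by ring
      omega
    rw [div_le_iff₀ (by positivity), mul_comm]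
    have hq' : ((2 ^ k : ℕ) : ℝ) ≤ ((2 * P ! * (2 ^ k / P !) : ℕ) : ℝ) := Nat.cast_le.mpr hq
    push_cast at hq'
    exact hq'
  have hmain : ∀ a b, max k₁ (2 * P !) ≤ a → max k₁ (2 * P !) ≤ b → b ≤ a →
      ((badPairs P a b).card : ℝ) ≤
        8 / P * ((classBox P ! a).card * (classBox P ! b).card) := fun a b ha hb hba => by
    refine (card_badPairs_le hP a b hba).trans ?_
    refine le_trans ?_ (mul_le_mul_of_nonneg_left
      (mul_le_mul (hsize a ha) (hsize b hb) (by positivity) (Nat.cast_nonneg _)) (by positivity))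
    have hb' : ((b : ℝ) + 2) / 2 ^ b < 1 / (M ^ 2 * P * (4 / M + 2)) :=
      hk₁ b ((le_max_left _ _).trans hb)
    rw [div_lt_div_iff₀ (by positivity) (by positivity), one_mul] at hb'
    have hlog : 1 + Real.log ((2 : ℝ) ^ (b + 1)) ≤ (b : ℝ) + 2 := by
      have := Real.log_two_lt_d9
      rw [Real.log_pow]
      push_cast
      nlinarith [Nat.cast_nonneg (α := ℝ) b]
    have hab : (2 : ℝ) ^ b ≤ 2 ^ a := pow_le_pow_right₀ (by norm_num) hba
    have h2b : 2 * (2 : ℝ) ^ b ≤ 2 * ((b : ℝ) + 2) * 2 ^ a := by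
      nlinarith [Nat.cast_nonneg (α := ℝ) b, pow_pos (two_pos (α := ℝ)) a]
    calc _ ≤ (2 : ℝ) ^ a * 2 ^ b / (M ^ 2 * P) + 2 * 2 ^ a / M * ((b : ℝ) + 2) +
          2 * ((b : ℝ) + 2) * 2 ^ a := by
          rw [← hMdef]
          gcongr
      _ = (2 : ℝ) ^ a * 2 ^ b / (M ^ 2 * P) +
          2 ^ a * ((2 / M + 2) * ((b : ℝ) + 2)) := by ring
      _ ≤ (2 : ℝ) ^ a * 2 ^ b / (M ^ 2 * P) + 2 ^ a * (2 ^ b / (M ^ 2 * P)) := by
          refine add_le_add le_rfl (mul_le_mul_of_nonneg_left ?_ (by positivity))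
          rw [le_div_iff₀ (by positivity)]
          refine le_trans (le_of_eq (by ring : _ = ((b : ℝ) + 2) * (M ^ 2 * P * (2 / M + 2))))
            (le_trans ?_ hb'.le)
          gcongr
          norm_num
      _ = 8 / P * (2 ^ a / (2 * M) * (2 ^ b / (2 * M))) := by field_simp; ring
  intro a b ha hb
  rcases le_total b a with h | h
  · exact hmain a b ha hb h
  · have hsym : (badPairs P a b).card = (badPairs P b a).card :=
      Finset.card_nbij' Prod.swap Prod.swap
        (fun x hx => by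
          obtain ⟨h1, h2⟩ := Finset.mem_filter.mp hx
          obtain ⟨h3, h4⟩ := Finset.mem_product.mp h1
          exact Finset.mem_filter.mpr ⟨Finset.mem_product.mpr ⟨h4, h3⟩,
            fun hc => h2 hc.symm⟩)
        (fun x hx => by
          obtain ⟨h1, h2⟩ := Finset.mem_filter.mp hx
          obtain ⟨h3, h4⟩ := Finset.mem_product.mp h1
          exact Finset.mem_filter.mpr ⟨Finset.mem_product.mpr ⟨h4, h3⟩,
            fun hc => h2 hc.symm⟩)
        (fun x _ => rfl) (fun x _ => rfl)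
    rw [hsym]
    refine (hmain b a hb ha h).trans_eq ?_
    ring

/-- Pairwise coprime tuples in the box `∏ [2^kⱼ, 2^(kⱼ+1))`. -/
def coprimeBox {ι : Type*} [Fintype ι] (k : ι → ℕ) : Finset (ι → ℕ) :=
  (Fintype.piFinset fun j => Finset.Ico (2 ^ k j) (2 ^ (k j + 1))).filter
    fun w => ∀ i j, i ≠ j → (w i).Coprime (w j)

theorem mem_coprimeBox {ι : Type*} [Fintype ι] {k : ι → ℕ} {w : ι → ℕ} :
    w ∈ coprimeBox k ↔ (∀ j, 2 ^ k j ≤ w j ∧ w j < 2 ^ (k j + 1)) ∧
      ∀ i j, i ≠ j → (w i).Coprime (w j) := by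
  simp [coprimeBox]

theorem card_filter_pair {ι : Type*} [Fintype ι] (N : ι → Finset ℕ) {i j : ι} (hij : i ≠ j)
    (R : ℕ → ℕ → Prop) [DecidableRel R] :
    (((Fintype.piFinset N).filter fun w => R (w i) (w j)).card : ℝ) * ((N i).card * (N j).card) =
      (((N i) ×ˢ (N j)).filter fun x => R x.1 x.2).card * ∏ l, ((N l).card : ℝ) := by
  have hfib : ∀ x ∈ (N i ×ˢ N j).filter fun x => R x.1 x.2,
      (((Fintype.piFinset N).filter fun w => R (w i) (w j)).filter
        fun w => (w i, w j) = x).card = ∏ l ∈ (Finset.univ.erase i).erase j, (N l).card := by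
    intro x hx
    obtain ⟨hx, hR⟩ := Finset.mem_filter.mp hx
    obtain ⟨hi, hj⟩ := Finset.mem_product.mp hx
    have heq : (((Fintype.piFinset N).filter fun w => R (w i) (w j)).filter
        fun w => (w i, w j) = x) =
        Fintype.piFinset fun l => if l = i then {x.1} else if l = j then {x.2} else N l := by
      ext w
      simp only [Finset.mem_filter, Fintype.mem_piFinset]
      constructor
      · rintro ⟨⟨h1, -⟩, h2⟩ l
        rw [← h2]
        split_ifs with h3 h4
        · simp [h3]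
        · simp [h4]
        · exact h1 l
      · intro h1
        have e1 : w i = x.1 := by simpa using h1 i
        have e2 : w j = x.2 := by simpa [hij.symm] using h1 j
        refine ⟨⟨fun l => ?_, by rw [e1, e2]; exact hR⟩, by rw [e1, e2]⟩
        by_cases h3 : l = i
        · rw [h3, e1]; exact hi
        · by_cases h4 : l = j
          · rw [h4, e2]; exact hj
          · simpa [h3, h4] using h1 l
    rw [heq, Fintype.card_piFinset, ← Finset.mul_prod_erase _ _ (Finset.mem_univ i), if_pos rfl,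
      Finset.card_singleton, one_mul,
      ← Finset.mul_prod_erase _ _ (Finset.mem_erase.mpr ⟨hij.symm, Finset.mem_univ j⟩),
      if_neg hij.symm, if_pos rfl, Finset.card_singleton, one_mul]
    refine Finset.prod_congr rfl fun l hl => ?_
    rw [if_neg (Finset.ne_of_mem_erase (Finset.mem_of_mem_erase hl)),
      if_neg (Finset.ne_of_mem_erase hl)]
  rw [Finset.card_eq_sum_card_fiberwise (f := fun w => (w i, w j))
    (t := (N i ×ˢ N j).filter fun x => R x.1 x.2) fun w hw => by
      obtain ⟨h1, h2⟩ := Finset.mem_filter.mp hw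
      exact Finset.mem_filter.mpr ⟨Finset.mem_product.mpr
        ⟨Fintype.mem_piFinset.mp h1 i, Fintype.mem_piFinset.mp h1 j⟩, h2⟩,
    Finset.sum_congr rfl hfib, Finset.sum_const, smul_eq_mul, Nat.cast_mul, Nat.cast_prod,
    ← Finset.mul_prod_erase _ (fun l => ((N l).card : ℝ)) (Finset.mem_univ i),
    ← Finset.mul_prod_erase _ (fun l => ((N l).card : ℝ))
      (Finset.mem_erase.mpr ⟨hij.symm, Finset.mem_univ j⟩)]
  ring

/-- **A positive proportion is pairwise coprime.** -/
theorem exists_coprimeBox_bound (ι : Type*) [Fintype ι] :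
    ∃ c : ℝ, 0 < c ∧ ∃ k₀ : ℕ, ∀ k : ι → ℕ, (∀ j, k₀ ≤ k j) →
      c * (2 : ℝ) ^ (∑ j, k j) ≤ (coprimeBox k).card := by
  set P := 16 * (Fintype.card ι) ^ 2 + 1 with hP
  obtain ⟨k₁, hk₁⟩ := eventually_badPairs_le (P := P) (Nat.succ_pos _)
  set M : ℝ := (P ! : ℝ)
  refine ⟨(2 * M)⁻¹ ^ Fintype.card ι / 2, by positivity, max k₁ (2 * P !), fun k hk => ?_⟩
  set N : ι → Finset ℕ := fun j => classBox P ! (k j)
  have hN : ∀ j, (2 : ℝ) ^ k j / (2 * M) ≤ (N j).card := fun j => by
    refine le_trans ?_ (Nat.cast_le.mpr (le_card_classBox (Nat.factorial_pos P)))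
    have h2 : 2 * P ! ≤ 2 ^ k j :=
      le_trans ((le_max_right _ _).trans (hk j)) Nat.lt_two_pow_self.le
    have hq : 2 ^ k j ≤ 2 * P ! * (2 ^ k j / P !) := by
      have h4 := Nat.div_add_mod (2 ^ k j) P !
      have h5 := Nat.mod_lt (2 ^ k j) (Nat.factorial_pos P)
      have h6 : 2 * P ! * (2 ^ k j / P !) = P ! * (2 ^ k j / P !) + P ! * (2 ^ k j / P !) := by
        ring
      omega
    rw [div_le_iff₀ (by positivity), mul_comm]
    have hq' : ((2 ^ k j : ℕ) : ℝ) ≤ ((2 * P ! * (2 ^ k j / P !) : ℕ) : ℝ) := Nat.cast_le.mpr hq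
    push_cast at hq'
    exact hq'
  have hN0 : ∀ j, 0 < ((N j).card : ℝ) := fun j => lt_of_lt_of_le (by positivity) (hN j)
  set bad : ι × ι → Finset (ι → ℕ) := fun q =>
    (Fintype.piFinset N).filter fun w => ¬(w q.1).Coprime (w q.2)
  have hbad : ∀ q ∈ (Finset.univ : Finset ι).offDiag,
      ((bad q).card : ℝ) ≤ 8 / P * ∏ l, ((N l).card : ℝ) := fun q hq => by
    have hne : q.1 ≠ q.2 := (Finset.mem_offDiag.mp hq).2.2
    refine le_of_mul_le_mul_right ?_ (mul_pos (hN0 q.1) (hN0 q.2))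
    simp only [bad]
    rw [card_filter_pair N hne fun m n => ¬m.Coprime n]
    calc _ ≤ 8 / (P : ℝ) * ((N q.1).card * (N q.2).card) * ∏ l, ((N l).card : ℝ) :=
          mul_le_mul_of_nonneg_right (hk₁ _ _ ((le_max_left _ _).trans (hk _))
            ((le_max_left _ _).trans (hk _))) (Finset.prod_nonneg fun l _ => Nat.cast_nonneg _)
      _ = _ := by ring
  have hsub : Fintype.piFinset N ⊆
      coprimeBox k ∪ (Finset.univ : Finset ι).offDiag.biUnion bad := fun w hw => by
    by_cases hc : ∀ i j, i ≠ j → (w i).Coprime (w j)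
    · refine Finset.mem_union_left _ (Finset.mem_filter.mpr
        ⟨Fintype.mem_piFinset.mpr fun j => ?_, hc⟩)
      have := (Finset.mem_filter.mp (Fintype.mem_piFinset.mp hw j)).1
      rwa [pow_succ, mul_two]
    · push Not at hc
      obtain ⟨i, j, hne, hnc⟩ := hc
      exact Finset.mem_union_right _ (Finset.mem_biUnion.mpr ⟨(i, j),
        Finset.mem_offDiag.mpr ⟨Finset.mem_univ _, Finset.mem_univ _, hne⟩,
        Finset.mem_filter.mpr ⟨hw, hnc⟩⟩)
  have hcard : ∏ l, ((N l).card : ℝ) ≤ (coprimeBox k).card + (∏ l, ((N l).card : ℝ)) / 2 := by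
    rw [← Nat.cast_prod, ← Fintype.card_piFinset]
    refine (Nat.cast_le.mpr ((Finset.card_le_card hsub).trans (Finset.card_union_le _ _))).trans ?_
    rw [Nat.cast_add]
    refine add_le_add le_rfl ((Nat.cast_le.mpr Finset.card_biUnion_le).trans ?_)
    rw [Nat.cast_sum]
    refine (Finset.sum_le_card_nsmul _ _ _ hbad).trans ?_
    rw [Fintype.card_piFinset, Nat.cast_prod, nsmul_eq_mul, ← mul_assoc,
      div_eq_inv_mul (∏ l, ((N l).card : ℝ)) 2]
    refine mul_le_mul_of_nonneg_right ?_ (Finset.prod_nonneg fun l _ => Nat.cast_nonneg _)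
    have h1 : (((Finset.univ : Finset ι).offDiag.card : ℕ) : ℝ) ≤ (Fintype.card ι : ℝ) ^ 2 := by
      rw [Finset.offDiag_card, Finset.card_univ, sq, ← Nat.cast_mul]
      exact Nat.cast_le.mpr (Nat.sub_le _ _)
    rw [mul_div_assoc', div_le_iff₀ (by positivity), hP]
    push_cast
    linarith
  have hprod : ∏ l, ((2 : ℝ) ^ k l / (2 * M)) ≤ ∏ l, ((N l).card : ℝ) :=
    Finset.prod_le_prod (fun l _ => by positivity) fun l _ => hN l
  rw [Finset.prod_div_distrib, Finset.prod_const, Finset.card_univ, Finset.prod_pow_eq_pow_sum,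
    div_eq_mul_inv, ← inv_pow] at hprod
  linarith

end FA.ToricCubic
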