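import Fermat.Agent.ToricCubic.Triples
import Mathlib.LinearAlgebra.Projectivization.Basic

/-!
# The points of the surface

Primitive integral vectors on `x₀³ = x₁ x₂ x₃` with `x₀ ≠ 0` lie over the triples with sign choices
of three coordinates, and those with `x₀ > 0` represent distinct rational points; the lines in
`x₀ = 0` carry `≫ B²` of them.
-/

set_option autoImplicit false
set_option linter.style.haveILetI false

noncomputable section

open Filter
open scoped Classical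

namespace FA.ToricCubic

/-- An integral vector without common prime. -/
def Primitive (x : Fin 4 → ℤ) : Prop := ∀ p : ℕ, p.Prime → ∃ i, ¬(p : ℤ) ∣ x i

theorem gcd_eq_one_iff (x : Fin 4 → ℤ) : Finset.univ.gcd x = 1 ↔ Primitive x := by
  constructor
  · intro h p hp
    by_contra hc
    push Not at hc
    have hd := Finset.dvd_gcd (s := Finset.univ) (f := x) (a := (p : ℤ)) fun i _ => hc i
    rw [h] at hd
    exact hp.not_dvd_one (by exact_mod_cast hd)
  · intro h
    have hn : normalize (Finset.univ.gcd x) = Finset.univ.gcd x := Finset.normalize_gcd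
    rw [← Int.abs_eq_normalize, Int.abs_eq_natAbs] at hn
    by_contra hc
    obtain ⟨p, hp, hd⟩ := Nat.exists_prime_and_dvd (n := (Finset.univ.gcd x).natAbs) (by omega)
    obtain ⟨i, hi⟩ := h p hp
    exact hi ((Int.natCast_dvd.mpr hd).trans (Finset.gcd_dvd (Finset.mem_univ i)))

/-- The primitive vectors of height at most `B` off the lines. -/
def openPoints (B : ℕ) : Set (Fin 4 → ℤ) :=
  {x | x 0 ^ 3 = x 1 * x 2 * x 3 ∧ x 0 ≠ 0 ∧ Primitive x ∧ ∀ i, |x i| ≤ (B : ℤ)}

/-- The primitive vectors of height at most `B` on the lines. -/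
def linePoints (B : ℕ) : Set (Fin 4 → ℤ) :=
  {x | x 0 ^ 3 = x 1 * x 2 * x 3 ∧ x 0 = 0 ∧ Primitive x ∧ ∀ i, |x i| ≤ (B : ℤ)}

theorem finite_bounded (B : ℕ) : {x : Fin 4 → ℤ | ∀ i, |x i| ≤ (B : ℤ)}.Finite :=
  (Fintype.piFinset fun _ : Fin 4 => Finset.Icc (-(B : ℤ)) B).finite_toSet.subset fun x hx => by
    rw [Finset.mem_coe, Fintype.mem_piFinset]
    exact fun i => Finset.mem_Icc.mpr (abs_le.mp (hx i))

theorem finite_openPoints (B : ℕ) : (openPoints B).Finite :=
  (finite_bounded B).subset fun _ h => h.2.2.2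

theorem finite_linePoints (B : ℕ) : (linePoints B).Finite :=
  (finite_bounded B).subset fun _ h => h.2.2.2

/-- The absolute values of the last three coordinates. -/
def absTriple (x : Fin 4 → ℤ) : Fin 3 → ℕ :=
  ![(x 1).natAbs, (x 2).natAbs, (x 3).natAbs]

theorem absTriple_mem {B : ℕ} {x : Fin 4 → ℤ} (hx : x ∈ openPoints B) :
    absTriple x ∈ goodTriples B := by
  obtain ⟨he, h0, hp, hB⟩ := hx
  have hprod : x 1 * x 2 * x 3 ≠ 0 := he ▸ pow_ne_zero 3 h0
  simp only [mul_ne_zero_iff] at hprod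
  refine Finset.mem_filter.mpr ⟨Fintype.mem_piFinset.mpr fun i => Finset.mem_Icc.mpr ?_,
    ⟨(x 0).natAbs, by
      rw [← Int.natAbs_pow, he, Int.natAbs_mul, Int.natAbs_mul, Fin.prod_univ_three]
      rfl⟩, fun p hpp => ?_⟩
  · have h1 := hB 1
    have h2 := hB 2
    have h3 := hB 3
    rw [Int.abs_eq_natAbs] at h1 h2 h3
    fin_cases i <;> simp [absTriple] <;> omega
  · by_contra hc
    push Not at hc
    obtain ⟨i, hi⟩ := hp p hpp
    have h1 : (p : ℤ) ∣ x 1 := Int.natCast_dvd.mpr (hc 0)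
    fin_cases i
    · exact hi ((Nat.prime_iff_prime_int.mp hpp).dvd_of_dvd_pow
        (show (p : ℤ) ∣ x 0 ^ 3 from he ▸ (h1.mul_right _).mul_right _))
    · exact hi h1
    · exact hi (Int.natCast_dvd.mpr (hc 1))
    · exact hi (Int.natCast_dvd.mpr (hc 2))

theorem ncard_openPoints_le (B : ℕ) :
    (openPoints B).ncard ≤ 8 * (goodTriples B).card := by
  have h := Set.ncard_le_ncard_of_injOn
    (t := ((goodTriples B ×ˢ (Finset.univ : Finset (Fin 3 → Bool)) :
      Finset ((Fin 3 → ℕ) × (Fin 3 → Bool))) : Set ((Fin 3 → ℕ) × (Fin 3 → Bool))))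
    (fun x : Fin 4 → ℤ => (absTriple x, fun i : Fin 3 => decide (0 < x i.succ)))
    (fun x hx => Finset.mem_coe.mpr (Finset.mem_product.mpr ⟨absTriple_mem hx, Finset.mem_univ _⟩))
    (fun x hx y hy hxy => by
      obtain ⟨ha, hs⟩ := Prod.mk.injEq _ _ _ _ ▸ hxy
      obtain ⟨hex, hx0, -, -⟩ := hx
      obtain ⟨hey, hy0, -, -⟩ := hy
      have hx' : x 1 * x 2 * x 3 ≠ 0 := hex ▸ pow_ne_zero 3 hx0
      have hy' : y 1 * y 2 * y 3 ≠ 0 := hey ▸ pow_ne_zero 3 hy0
      simp only [mul_ne_zero_iff] at hx' hy'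
      have hcoord : ∀ a b : ℤ, a ≠ 0 → b ≠ 0 → a.natAbs = b.natAbs → (0 < a ↔ 0 < b) → a = b :=
        fun a b _ _ _ _ => by omega
      have e1 : x 1 = y 1 := hcoord _ _ hx'.1.1 hy'.1.1 (congrFun ha 0)
        (decide_eq_decide.mp (congrFun hs 0))
      have e2 : x 2 = y 2 := hcoord _ _ hx'.1.2 hy'.1.2 (congrFun ha 1)
        (decide_eq_decide.mp (congrFun hs 1))
      have e3 : x 3 = y 3 := hcoord _ _ hx'.2 hy'.2 (congrFun ha 2)
        (decide_eq_decide.mp (congrFun hs 2))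
      have e0 : x 0 = y 0 := (Odd.strictMono_pow (show Odd 3 by decide)).injective
        (show x 0 ^ 3 = y 0 ^ 3 by rw [hex, hey, e1, e2, e3])
      funext i
      fin_cases i
      exacts [e0, e1, e2, e3])
    (Finset.finite_toSet _)
  rw [Set.ncard_coe_finset, Finset.card_product, Finset.card_univ] at h
  simpa [mul_comm] using h

/-- The point of a triple. -/
def liftTriple (a : Fin 3 → ℕ) : Fin 4 → ℤ :=
  ![(if h : ∃ t : ℕ, t ^ 3 = ∏ i, a i then (h.choose : ℤ) else 0), a 0, a 1, a 2]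

theorem liftTriple_spec {B : ℕ} {a : Fin 3 → ℕ} (ha : a ∈ goodTriples B) :
    liftTriple a ∈ openPoints B ∧ 0 < liftTriple a 0 := by
  obtain ⟨ha, ht, hp⟩ := Finset.mem_filter.mp ha
  have hi : ∀ i, 1 ≤ a i ∧ a i ≤ B := fun i => Finset.mem_Icc.mp (Fintype.mem_piFinset.mp ha i)
  have hspec : ht.choose ^ 3 = a 0 * a 1 * a 2 := ht.choose_spec.trans (Fin.prod_univ_three a)
  have hpos : 0 < ht.choose := by
    rcases Nat.eq_zero_or_pos ht.choose with h | h
    · rw [h, zero_pow three_ne_zero] at hspec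
      have := Nat.mul_pos (Nat.mul_pos (hi 0).1 (hi 1).1) (hi 2).1
      omega
    · exact h
  have hle : ht.choose ≤ B := by
    refine (pow_le_pow_iff_left₀ (Nat.zero_le _) (Nat.zero_le _) three_ne_zero).mp ?_
    rw [hspec, show B ^ 3 = B * B * B by ring]
    exact Nat.mul_le_mul (Nat.mul_le_mul (hi 0).2 (hi 1).2) (hi 2).2
  have e0 : liftTriple a 0 = (ht.choose : ℤ) := by simp [liftTriple, ht]
  refine ⟨⟨?_, ?_, fun p hpp => ?_, fun i => ?_⟩, by rw [e0]; exact_mod_cast hpos⟩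
  · rw [e0]
    show (ht.choose : ℤ) ^ 3 = (a 0 : ℤ) * (a 1 : ℤ) * (a 2 : ℤ)
    exact_mod_cast hspec
  · rw [e0]
    exact_mod_cast hpos.ne'
  · obtain ⟨i, hi'⟩ := hp p hpp
    refine ⟨i.succ, ?_⟩
    fin_cases i <;> simpa [liftTriple, Int.natCast_dvd_natCast] using hi'
  · fin_cases i
    · show |liftTriple a 0| ≤ _
      rw [e0, Nat.abs_cast]
      exact_mod_cast hle
    all_goals simp [liftTriple, (hi _).2]

theorem liftTriple_injective : Function.Injective liftTriple := fun a b h => by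
  funext i
  fin_cases i
  · simpa [liftTriple] using congrFun h 1
  · simpa [liftTriple] using congrFun h 2
  · simpa [liftTriple] using congrFun h 3

theorem card_le_ncard_openPoints (B : ℕ) : (goodTriples B).card ≤ (openPoints B).ncard := by
  rw [← Set.ncard_coe_finset]
  exact Set.ncard_le_ncard_of_injOn liftTriple (fun a ha => (liftTriple_spec ha).1)
    liftTriple_injective.injOn (finite_openPoints B)

/-! ## Rational points -/

theorem ne_zero_cast {x : Fin 4 → ℤ} (hx : Primitive x) : (fun i => (x i : ℚ)) ≠ 0 := fun h => by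
  obtain ⟨i, hi⟩ := hx 2 Nat.prime_two
  have := congrFun h i
  simp only [Pi.zero_apply, Int.cast_eq_zero] at this
  exact hi (this ▸ dvd_zero _)

/-- Primitive vectors with the same point are equal up to sign. -/
theorem eq_or_eq_neg {x y : Fin 4 → ℤ} (hx : Primitive x) (hy : Primitive y)
    (h : Projectivization.mk ℚ (fun i => (x i : ℚ)) (ne_zero_cast hx) =
      Projectivization.mk ℚ (fun i => (y i : ℚ)) (ne_zero_cast hy)) : x = y ∨ x = -y := by
  obtain ⟨q, hq⟩ := (Projectivization.mk_eq_mk_iff' _ _ _ _ _).mp h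
  have hb : ∀ i, (q.den : ℤ) * x i = q.num * y i := fun i => by
    have h1 : q * (y i : ℚ) = (x i : ℚ) := congrFun hq i
    have h2 : (q.den : ℚ) * q = (q.num : ℚ) := by rw [mul_comm]; exact Rat.mul_den_eq_num q
    have h3 : ((q.den : ℤ) : ℚ) * (x i : ℚ) = (q.num : ℚ) * (y i : ℚ) := by
      rw [← h1, ← mul_assoc, Int.cast_natCast, h2]
    exact_mod_cast h3
  have hden : q.den = 1 := by
    by_contra hne
    obtain ⟨p, hp, hd⟩ := Nat.exists_prime_and_dvd hne
    obtain ⟨i, hi⟩ := hy p hp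
    rcases (Nat.prime_iff_prime_int.mp hp).dvd_or_dvd
      (show (p : ℤ) ∣ q.num * y i from hb i ▸ (Int.natCast_dvd_natCast.mpr hd).mul_right _) with
      h' | h'
    · exact hp.not_dvd_one (q.reduced ▸ Nat.dvd_gcd (Int.natCast_dvd.mp h') hd)
    · exact hi h'
  simp only [hden, Nat.cast_one, one_mul] at hb
  have hnum : q.num.natAbs = 1 := by
    by_contra hne
    obtain ⟨p, hp, hd⟩ := Nat.exists_prime_and_dvd hne
    obtain ⟨i, hi⟩ := hx p hp
    exact hi (hb i ▸ (Int.natCast_dvd.mpr hd).mul_right _)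
  rcases Int.natAbs_eq_iff.mp hnum with h1 | h1 <;> rw [Nat.cast_one] at h1
  · exact Or.inl (funext fun i => by rw [hb i, h1, one_mul])
  · exact Or.inr (funext fun i => by rw [hb i, h1, Pi.neg_apply, neg_one_mul])

/-- The rational points with a representative in `S`. -/
def pointsOf (S : Set (Fin 4 → ℤ)) : Set (Projectivization ℚ (Fin 4 → ℚ)) :=
  {P | ∃ x ∈ S, ∃ h, Projectivization.mk ℚ (fun i => (x i : ℚ)) h = P}

theorem pointsOf_eq (S : Set (Fin 4 → ℤ)) (hS : ∀ x ∈ S, Primitive x) :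
    pointsOf S = Set.range fun x : S =>
      Projectivization.mk ℚ (fun i => (x.1 i : ℚ)) (ne_zero_cast (hS x.1 x.2)) := by
  ext P
  constructor
  · rintro ⟨x, hx, h, rfl⟩
    exact ⟨⟨x, hx⟩, rfl⟩
  · rintro ⟨⟨x, hx⟩, rfl⟩
    exact ⟨x, hx, _, rfl⟩

theorem ncard_pointsOf_le {S : Set (Fin 4 → ℤ)} (hf : S.Finite) (hS : ∀ x ∈ S, Primitive x) :
    (pointsOf S).Finite ∧ (pointsOf S).ncard ≤ S.ncard := by
  haveI := hf.to_subtype
  rw [pointsOf_eq S hS]
  refine ⟨Set.finite_range _, ?_⟩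
  rw [← Set.image_univ, ← Nat.card_coe_set_eq S, ← Set.ncard_univ]
  exact Set.ncard_image_le Set.finite_univ

/-- Vectors with a positive coordinate give distinct points. -/
theorem card_le_ncard_pointsOf {S : Set (Fin 4 → ℤ)} (hf : S.Finite) (hS : ∀ x ∈ S, Primitive x)
    {α : Type*} (A : Finset α) (g : α → Fin 4 → ℤ) (j : Fin 4)
    (hg : ∀ a ∈ A, g a ∈ S ∧ 0 < g a j) (hinj : Set.InjOn g A) :
    A.card ≤ (pointsOf S).ncard := by
  have hne : ∀ a : A, Primitive (g a.1) := fun a => hS _ (hg a.1 a.2).1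
  have hinj' : Function.Injective fun a : A =>
      Projectivization.mk ℚ (fun i => (g a.1 i : ℚ)) (ne_zero_cast (hne a)) := fun a b h => by
    rcases eq_or_eq_neg (hne a) (hne b) h with h' | h'
    · exact Subtype.ext (hinj a.2 b.2 h')
    · have h1 := congrFun h' j
      rw [Pi.neg_apply] at h1
      have := (hg a.1 a.2).2
      have := (hg b.1 b.2).2
      omega
  calc A.card = (Set.range fun a : A =>
      Projectivization.mk ℚ (fun i => (g a.1 i : ℚ)) (ne_zero_cast (hne a))).ncard := by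
        rw [Set.ncard_range_of_injective hinj', Nat.card_eq_fintype_card, Fintype.card_coe]
    _ ≤ _ := Set.ncard_le_ncard (by
        rintro _ ⟨a, rfl⟩
        exact ⟨_, (hg a.1 a.2).1, _, rfl⟩) (ncard_pointsOf_le hf hS).1

theorem log_add_one_le {B : ℕ} (hB : 3 ≤ B) : (Nat.log 2 B : ℝ) + 1 ≤ 3 * Real.log B := by
  have h1 : ((2 ^ Nat.log 2 B : ℕ) : ℝ) ≤ (B : ℝ) :=
    Nat.cast_le.mpr (Nat.pow_log_le_self 2 (by omega))
  push_cast at h1
  have h2 : (Nat.log 2 B : ℝ) * Real.log 2 ≤ Real.log B := by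
    rw [← Real.log_pow]
    exact Real.log_le_log (by positivity) h1
  have h3 : 1 ≤ Real.log B := by
    rw [← Real.log_exp 1]
    refine Real.log_le_log (Real.exp_pos 1) (le_trans Real.exp_one_lt_d9.le ?_)
    have : (3 : ℝ) ≤ B := by exact_mod_cast hB
    linarith
  nlinarith [Real.log_two_gt_d9, Nat.cast_nonneg (α := ℝ) (Nat.log 2 B)]

/-- **The order of magnitude, for vectors and for points.** -/
theorem exists_order : ∃ c C : ℝ, 0 < c ∧ ∀ᶠ B : ℕ in atTop,
    (c * B * Real.log B ^ 6 ≤ (openPoints B).ncard ∧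
      ((openPoints B).ncard : ℝ) ≤ C * B * Real.log B ^ 6) ∧
    (c * B * Real.log B ^ 6 ≤ (pointsOf (openPoints B)).ncard ∧
      ((pointsOf (openPoints B)).ncard : ℝ) ≤ C * B * Real.log B ^ 6) := by
  obtain ⟨c, hc, h⟩ := exists_card_goodTriples_ge
  refine ⟨c, 1000 * 3 ^ 6, hc, ?_⟩
  filter_upwards [h, eventually_ge_atTop 3] with B hlow hB
  have hS : ∀ x ∈ openPoints B, Primitive x := fun _ hx => hx.2.2.1
  have hup : ((openPoints B).ncard : ℝ) ≤ 1000 * 3 ^ 6 * B * Real.log B ^ 6 := by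
    refine le_trans (Nat.cast_le.mpr (ncard_openPoints_le B)) ?_
    push_cast
    calc (8 : ℝ) * (goodTriples B).card ≤ 8 * (125 * B * ((Nat.log 2 B : ℝ) + 1) ^ 6) :=
          mul_le_mul_of_nonneg_left (card_goodTriples_le (by omega)) (by norm_num)
      _ ≤ 8 * (125 * B * (3 * Real.log B) ^ 6) := by
          have := log_add_one_le hB
          gcongr
      _ = _ := by ring
  refine ⟨⟨hlow.trans (Nat.cast_le.mpr (card_le_ncard_openPoints B)), hup⟩, hlow.trans
    (Nat.cast_le.mpr (card_le_ncard_pointsOf (finite_openPoints B) hS _ liftTriple 0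
      (fun a ha => ⟨(liftTriple_spec ha).1, (liftTriple_spec ha).2⟩)
      liftTriple_injective.injOn)), ?_⟩
  exact le_trans (Nat.cast_le.mpr (ncard_pointsOf_le (finite_openPoints B) hS).2) hup

/-- **The lines dominate.** -/
theorem exists_line_bound : ∃ c : ℝ, 0 < c ∧ ∀ᶠ B : ℕ in atTop,
    c * (B : ℝ) ^ 2 ≤ (pointsOf (linePoints B)).ncard := by
  obtain ⟨c, hc, k₀, hk₀⟩ := exists_coprimeBox_bound (Fin 2)
  refine ⟨c / 16, by positivity, ?_⟩
  filter_upwards [eventually_ge_atTop (2 ^ (k₀ + 1))] with B hB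
  have hB0 : B ≠ 0 := fun h => by simp [h] at hB
  have hL : k₀ + 1 ≤ Nat.log 2 B := Nat.le_log_of_pow_le one_lt_two hB
  obtain ⟨k, hk⟩ : ∃ k, Nat.log 2 B = k + 1 := ⟨Nat.log 2 B - 1, by omega⟩
  have hB1 : 2 ^ (k + 1) ≤ B := hk ▸ Nat.pow_log_le_self 2 hB0
  have hB2 : B < 2 ^ (k + 2) := by
    have := Nat.lt_pow_succ_log_self one_lt_two B
    rwa [hk] at this
  have hspec : ∀ w ∈ coprimeBox (fun _ : Fin 2 => k),
      ![0, 0, (w 0 : ℤ), (w 1 : ℤ)] ∈ linePoints B ∧ (0 : ℤ) < ![0, 0, (w 0 : ℤ), (w 1 : ℤ)] 2 := by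
    intro w hw
    obtain ⟨hI, hc⟩ := mem_coprimeBox.mp hw
    have hpos : ∀ i, 0 < w i := fun i => lt_of_lt_of_le (Nat.two_pow_pos k) (hI i).1
    refine ⟨⟨by simp, by simp, fun p hp => ?_, fun i => ?_⟩, by simpa using hpos 0⟩
    · by_cases h : p ∣ w 0
      · refine ⟨3, fun h' => ?_⟩
        have h'' : p ∣ w 1 := by simpa [Int.natCast_dvd_natCast] using h'
        exact hp.not_dvd_one (hc 0 1 (by decide) ▸ Nat.dvd_gcd h h'')
      · exact ⟨2, by simpa [Int.natCast_dvd_natCast] using h⟩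
    · fin_cases i <;> simp <;> exact ((hI _).2.le.trans hB1)
  have hinj : Set.InjOn (fun w : Fin 2 → ℕ => ![0, 0, (w 0 : ℤ), (w 1 : ℤ)])
      (coprimeBox fun _ : Fin 2 => k) := fun w _ w' _ h => by
    funext i
    fin_cases i
    · simpa using congrFun h 2
    · simpa using congrFun h 3
  have h1 := hk₀ (fun _ => k) fun _ => by omega
  rw [Fin.sum_univ_two] at h1
  have h2 : (B : ℝ) ^ 2 ≤ 16 * 2 ^ (k + k) := by
    have h : ((B : ℕ) : ℝ) ≤ ((2 ^ (k + 2) : ℕ) : ℝ) := Nat.cast_le.mpr hB2.le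
    push_cast at h
    refine (pow_le_pow_left₀ (Nat.cast_nonneg _) h 2).trans_eq ?_
    ring
  calc c / 16 * (B : ℝ) ^ 2 ≤ c / 16 * (16 * 2 ^ (k + k)) :=
        mul_le_mul_of_nonneg_left h2 (by positivity)
    _ = c * 2 ^ (k + k) := by ring
    _ ≤ _ := h1.trans (Nat.cast_le.mpr (card_le_ncard_pointsOf (finite_linePoints B)
        (fun _ hx => hx.2.2.1) _ _ 2 hspec hinj))

/-- **The open part is negligible against the lines.** -/
theorem open_negligible : Tendsto (fun B : ℕ =>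
    ((pointsOf (openPoints B)).ncard : ℝ) / (pointsOf (linePoints B)).ncard) atTop (nhds 0) := by
  obtain ⟨c, C, -, h⟩ := exists_order
  obtain ⟨c', hc', h'⟩ := exists_line_bound
  have hlim : Tendsto (fun B : ℕ => C / c' * (Real.log B ^ 6 / (B : ℝ))) atTop (nhds 0) := by
    have h1 := (Real.isLittleO_pow_log_id_atTop (n := 6)).tendsto_div_nhds_zero.comp
      tendsto_natCast_atTop_atTop
    simpa using h1.const_mul (C / c')
  refine squeeze_zero' (Filter.Eventually.of_forall fun B => by positivity) ?_ hlim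
  filter_upwards [h, h', eventually_gt_atTop 0] with B hB hB' hpos
  have hBr : (0 : ℝ) < B := Nat.cast_pos.mpr hpos
  calc ((pointsOf (openPoints B)).ncard : ℝ) / (pointsOf (linePoints B)).ncard
      ≤ C * B * Real.log B ^ 6 / (c' * (B : ℝ) ^ 2) :=
        div_le_div₀ (le_trans (Nat.cast_nonneg _) hB.2.2) hB.2.2 (by positivity) hB'
    _ = C / c' * (Real.log B ^ 6 / (B : ℝ)) := by field_simp

end FA.ToricCubic
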