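import Mathlib.Data.Nat.Factorization.Basic
import Mathlib.Tactic

/-!
# The universal torsor of `x₀³ = x₁ x₂ x₃`

Positive integers without common factor whose product is a cube are
`xᵢ = ∏ wⱼ ^ vⱼᵢ` for the nine exponent vectors `(3,0,0)`, `(2,1,0)` and their permutations, and
pairwise coprime `w` are determined by `x`: at each prime one vector occurs, and no two of the nine
are proportional.
-/

set_option autoImplicit false
set_option linter.style.haveILetI false

noncomputable section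

open scoped Classical

namespace FA.ToricCubic

/-- The nine exponent vectors. -/
def expVec : Fin 9 → Fin 3 → ℕ :=
  ![![3, 0, 0], ![0, 3, 0], ![0, 0, 3], ![2, 1, 0], ![1, 2, 0], ![2, 0, 1], ![1, 0, 2],
    ![0, 2, 1], ![0, 1, 2]]

/-- The coordinates of a point of the torsor. -/
def torsorMap (w : Fin 9 → ℕ) (i : Fin 3) : ℕ := ∏ j, w j ^ expVec j i

theorem sum_expVec (j : Fin 9) : ∑ i, expVec j i = 3 := by
  revert j
  decide

theorem sum_expVec_left (i : Fin 3) : ∑ j, expVec j i = 9 := by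
  revert i
  decide

theorem prod_torsorMap (w : Fin 9 → ℕ) : ∏ i, torsorMap w i = (∏ j, w j) ^ 3 := by
  unfold torsorMap
  rw [Finset.prod_comm, ← Finset.prod_pow]
  exact Finset.prod_congr rfl fun j _ => by rw [Finset.prod_pow_eq_pow_sum, sum_expVec]

theorem torsorMap_pos {w : Fin 9 → ℕ} (hw : ∀ j, 1 ≤ w j) (i : Fin 3) : 1 ≤ torsorMap w i :=
  Nat.one_le_iff_ne_zero.mpr (Finset.prod_ne_zero_iff.mpr fun j _ =>
    pow_ne_zero _ (Nat.one_le_iff_ne_zero.mp (hw j)))

/-! ## Surjectivity -/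

/-- One prime. -/
theorem exists_combination (e : Fin 3 → ℕ) (h3 : 3 ∣ ∑ i, e i) (h0 : ∃ i, e i = 0) :
    ∃ a : Fin 9 → ℕ, ∀ i, ∑ j, a j * expVec j i = e i := by
  rw [Fin.sum_univ_three] at h3
  obtain ⟨i, hi⟩ := h0
  fin_cases i <;> simp only [Fin.zero_eta, Fin.mk_one, Fin.reduceFinMk] at hi
  · rcases (show e 1 % 3 = 0 ∨ e 1 % 3 = 1 ∨ e 1 % 3 = 2 by omega) with h | h | h
    · refine ⟨![0, e 1 / 3, e 2 / 3, 0, 0, 0, 0, 0, 0], fun i => ?_⟩
      fin_cases i <;> simp [expVec, Fin.sum_univ_succ] <;> omega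
    · refine ⟨![0, e 1 / 3, (e 2 - 2) / 3, 0, 0, 0, 0, 0, 1], fun i => ?_⟩
      fin_cases i <;> simp [expVec, Fin.sum_univ_succ] <;> omega
    · refine ⟨![0, e 1 / 3, (e 2 - 1) / 3, 0, 0, 0, 0, 1, 0], fun i => ?_⟩
      fin_cases i <;> simp [expVec, Fin.sum_univ_succ] <;> omega
  · rcases (show e 0 % 3 = 0 ∨ e 0 % 3 = 1 ∨ e 0 % 3 = 2 by omega) with h | h | h
    · refine ⟨![e 0 / 3, 0, e 2 / 3, 0, 0, 0, 0, 0, 0], fun i => ?_⟩
      fin_cases i <;> simp [expVec, Fin.sum_univ_succ] <;> omega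
    · refine ⟨![e 0 / 3, 0, (e 2 - 2) / 3, 0, 0, 0, 1, 0, 0], fun i => ?_⟩
      fin_cases i <;> simp [expVec, Fin.sum_univ_succ] <;> omega
    · refine ⟨![e 0 / 3, 0, (e 2 - 1) / 3, 0, 0, 1, 0, 0, 0], fun i => ?_⟩
      fin_cases i <;> simp [expVec, Fin.sum_univ_succ] <;> omega
  · rcases (show e 0 % 3 = 0 ∨ e 0 % 3 = 1 ∨ e 0 % 3 = 2 by omega) with h | h | h
    · refine ⟨![e 0 / 3, e 1 / 3, 0, 0, 0, 0, 0, 0, 0], fun i => ?_⟩
      fin_cases i <;> simp [expVec, Fin.sum_univ_succ] <;> omega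
    · refine ⟨![e 0 / 3, (e 1 - 2) / 3, 0, 0, 1, 0, 0, 0, 0], fun i => ?_⟩
      fin_cases i <;> simp [expVec, Fin.sum_univ_succ] <;> omega
    · refine ⟨![e 0 / 3, (e 1 - 1) / 3, 0, 1, 0, 0, 0, 0, 0], fun i => ?_⟩
      fin_cases i <;> simp [expVec, Fin.sum_univ_succ] <;> omega

/-- **Surjectivity.** -/
theorem exists_torsorMap_eq {x : Fin 3 → ℕ} (hx : ∀ i, 1 ≤ x i) {t : ℕ}
    (ht : t ^ 3 = ∏ i, x i) (hg : ∀ p : ℕ, p.Prime → ∃ i, ¬p ∣ x i) :
    ∃ w : Fin 9 → ℕ, (∀ j, 1 ≤ w j) ∧ torsorMap w = x := by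
  have hxne : ∀ i, x i ≠ 0 := fun i => Nat.one_le_iff_ne_zero.mp (hx i)
  have hcomb : ∀ p : ℕ, ∃ a : Fin 9 → ℕ, p.Prime → ∀ i,
      ∑ j, a j * expVec j i = (x i).factorization p := fun p => by
    by_cases hp : p.Prime
    · obtain ⟨a, ha⟩ := exists_combination (fun i => (x i).factorization p)
        ⟨t.factorization p, by
          have h := congrArg (fun n => n.factorization p) ht
          simpa [Nat.factorization_pow, Nat.factorization_prod fun i _ => hxne i,
            Finset.sum_apply, Finsupp.finsetSum_apply] using h.symm⟩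
        (let ⟨i, hi⟩ := hg p hp; ⟨i, Nat.factorization_eq_zero_of_not_dvd hi⟩)
      exact ⟨a, fun _ => ha⟩
    · exact ⟨0, fun h => absurd h hp⟩
  choose a ha using hcomb
  set S := (∏ i, x i).primeFactors with hS
  refine ⟨fun j => ∏ p ∈ S, p ^ a p j, fun j => Nat.one_le_iff_ne_zero.mpr
    (Finset.prod_ne_zero_iff.mpr fun p hp => pow_ne_zero _
      (Nat.prime_of_mem_primeFactors hp).ne_zero), funext fun i => ?_⟩
  unfold torsorMap
  simp only [← Finset.prod_pow]
  rw [Finset.prod_comm]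
  conv_rhs => rw [← Nat.prod_factorization_pow_eq_self (hxne i)]
  rw [Nat.prod_factorization_eq_prod_primeFactors]
  refine (Finset.prod_congr rfl fun p hp => ?_).trans (Finset.prod_subset
    (Nat.primeFactors_mono (Finset.dvd_prod_of_mem x (Finset.mem_univ i))
      (Finset.prod_ne_zero_iff.mpr fun k _ => hxne k)) fun p hp hp' => ?_).symm
  · rw [← Finset.prod_congr rfl fun j _ => pow_mul p (a p j) (expVec j i),
      Finset.prod_pow_eq_pow_sum, ha p (Nat.prime_of_mem_primeFactors hp)]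
  · rw [Nat.factorization_eq_zero_of_not_dvd fun hd => hp'
      (Nat.mem_primeFactors.mpr ⟨Nat.prime_of_mem_primeFactors hp, hd, hxne i⟩), pow_zero]

/-! ## Injectivity -/

theorem expVec_not_proportional : ∀ j j' : Fin 9,
    (∀ i i' : Fin 3, expVec j i * expVec j' i' = expVec j i' * expVec j' i) → j = j' := by
  decide

theorem expVec_ne_zero : ∀ j : Fin 9, ∃ i, expVec j i ≠ 0 := by
  decide

theorem eq_of_mul_expVec {j j' : Fin 9} {a b : ℕ}
    (h : ∀ i, a * expVec j i = b * expVec j' i) (ha : a ≠ 0) : j = j' ∧ a = b := by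
  obtain ⟨i₀, hi₀⟩ := expVec_ne_zero j
  have hb : b ≠ 0 := fun hb => mul_ne_zero ha hi₀ (by rw [h, hb, zero_mul])
  obtain rfl : j = j' := expVec_not_proportional j j' fun i i' =>
    Nat.eq_of_mul_eq_mul_left (Nat.pos_of_ne_zero (mul_ne_zero ha hb))
      (by linear_combination (b * expVec j' i') * h i - (b * expVec j' i) * h i')
  exact ⟨rfl, Nat.eq_of_mul_eq_mul_right (Nat.pos_of_ne_zero hi₀) (h i₀)⟩

theorem factorization_torsorMap {w : Fin 9 → ℕ} (hw : ∀ j, 1 ≤ w j) (p : ℕ) (i : Fin 3) :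
    (torsorMap w i).factorization p = ∑ j, (w j).factorization p * expVec j i := by
  rw [torsorMap, Nat.factorization_prod fun j _ =>
    pow_ne_zero _ (Nat.one_le_iff_ne_zero.mp (hw j)), Finsupp.finsetSum_apply]
  exact Finset.sum_congr rfl fun j _ => by simp [Nat.factorization_pow, mul_comm]

/-- **Injectivity.** -/
theorem torsorMap_injective {w w' : Fin 9 → ℕ} (hw : ∀ j, 1 ≤ w j) (hw' : ∀ j, 1 ≤ w' j)
    (hc : ∀ j j', j ≠ j' → (w j).Coprime (w j')) (hc' : ∀ j j', j ≠ j' → (w' j).Coprime (w' j'))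
    (h : torsorMap w = torsorMap w') : w = w' := by
  have key : ∀ (u u' : Fin 9 → ℕ), (∀ j, 1 ≤ u j) → (∀ j, 1 ≤ u' j) →
      (∀ j j', j ≠ j' → (u j).Coprime (u j')) → (∀ j j', j ≠ j' → (u' j).Coprime (u' j')) →
      torsorMap u = torsorMap u' → ∀ p j, (u j).factorization p ≠ 0 →
      (u' j).factorization p = (u j).factorization p := by
    intro u u' hu hu' hcu hcu' he p j hj
    have hsingle : ∀ (v : Fin 9 → ℕ), (∀ j j', j ≠ j' → (v j).Coprime (v j')) →
        ∀ k, (v k).factorization p ≠ 0 →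
        ∀ i, ∑ l, (v l).factorization p * expVec l i = (v k).factorization p * expVec k i := by
      intro v hv k hk i
      refine Finset.sum_eq_single k (fun l _ hl => ?_) (fun hn => absurd (Finset.mem_univ k) hn)
      rw [Nat.factorization_eq_zero_of_not_dvd fun hd => ?_, zero_mul]
      have hp : p.Prime := Nat.prime_of_mem_primeFactors
        (Nat.support_factorization (v k) ▸ Finsupp.mem_support_iff.mpr hk)
      exact hp.not_dvd_one (hv l k hl ▸ Nat.dvd_gcd hd (Nat.dvd_of_factorization_pos hk))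
    by_cases hall : ∀ k, (u' k).factorization p = 0
    · exfalso
      obtain ⟨i, hi⟩ := expVec_ne_zero j
      refine mul_ne_zero hj hi ?_
      rw [← hsingle u hcu j hj i, ← factorization_torsorMap hu, he, factorization_torsorMap hu']
      simp [hall]
    · push Not at hall
      obtain ⟨k, hk⟩ := hall
      obtain ⟨rfl, hab⟩ := eq_of_mul_expVec (j := j) (j' := k) (b := (u' k).factorization p)
        (fun i => by
          rw [← hsingle u hcu j hj i, ← hsingle u' hcu' k hk i, ← factorization_torsorMap hu, he,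
            factorization_torsorMap hu']) hj
      exact hab.symm
  funext j
  refine Nat.eq_of_factorization_eq (Nat.one_le_iff_ne_zero.mp (hw j))
    (Nat.one_le_iff_ne_zero.mp (hw' j)) fun p => ?_
  by_cases h1 : (w j).factorization p = 0
  · by_cases h2 : (w' j).factorization p = 0
    · rw [h1, h2]
    · exact key w' w hw' hw hc' hc h.symm p j h2
  · exact (key w w' hw hw' hc hc' h p j h1).symm

/-- Pairwise coprime torsor points give no common factor. -/
theorem exists_not_dvd_torsorMap {w : Fin 9 → ℕ}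
    (hc : ∀ j j', j ≠ j' → (w j).Coprime (w j')) {p : ℕ} (hp : p.Prime) :
    ∃ i, ¬p ∣ torsorMap w i := by
  by_contra h
  push Not at h
  have hone : ∀ i, ∃ j, expVec j i ≠ 0 ∧ p ∣ w j := fun i => by
    obtain ⟨j, -, hj⟩ := (Prime.dvd_finsetProd_iff hp.prime _).mp (h i)
    exact ⟨j, fun h0 => hp.not_dvd_one (by rwa [h0, pow_zero] at hj), hp.dvd_of_dvd_pow hj⟩
  obtain ⟨j₀, -, hd₀⟩ := hone 0
  have huniq : ∀ j, p ∣ w j → j = j₀ := fun j hj => by
    by_contra hne
    exact hp.not_dvd_one (hc j j₀ hne ▸ Nat.dvd_gcd hj hd₀)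
  obtain ⟨i, hi⟩ : ∃ i, expVec j₀ i = 0 :=
    (by decide : ∀ k : Fin 9, ∃ i, expVec k i = 0) j₀
  obtain ⟨j, hj, hd⟩ := hone i
  exact hj (huniq j hd ▸ hi)

end FA.ToricCubic
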