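import Fermat.Agent.ToricCubic.Boxes
import Fermat.Agent.ToricCubic.Torsor
import Mathlib.Analysis.SpecialFunctions.Log.Basic

/-!
# Counting the triples

The torsor points with all coordinates at most `B` fill dyadic boxes indexed by six free exponents
and three deficits, which decay geometrically; conversely six exponents in `[L/60, L/30)` give boxes
with pairwise coprime points in number `≫ B`.
-/

set_option autoImplicit false
set_option linter.style.haveILetI false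

noncomputable section

open Filter
open scoped Classical

namespace FA.ToricCubic

/-- Positive triples without common factor, product a cube, entries at most `B`. -/
def goodTriples (B : ℕ) : Finset (Fin 3 → ℕ) :=
  (Fintype.piFinset fun _ => Finset.Icc 1 B).filter fun x =>
    (∃ t : ℕ, t ^ 3 = ∏ i, x i) ∧ ∀ p : ℕ, p.Prime → ∃ i, ¬p ∣ x i

/-- The torsor points below `B`. -/
def torsorPoints (B : ℕ) : Finset (Fin 9 → ℕ) :=
  (Fintype.piFinset fun _ => Finset.Icc 1 B).filter fun w => ∀ i, torsorMap w i ≤ B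

/-- The dyadic exponents of the coordinates. -/
def level (k : Fin 9 → ℕ) (i : Fin 3) : ℕ := ∑ j, expVec j i * k j

/-- The dyadic boxes meeting the torsor points. -/
def boxIndex (L : ℕ) : Finset (Fin 9 → ℕ) :=
  (Fintype.piFinset fun _ => Finset.range (L + 1)).filter fun k => ∀ i, level k i ≤ L

theorem sum_level (k : Fin 9 → ℕ) : ∑ i, level k i = 3 * ∑ j, k j := by
  unfold level
  rw [Finset.sum_comm, Finset.mul_sum]
  exact Finset.sum_congr rfl fun j _ => by rw [← Finset.sum_mul, sum_expVec]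

theorem goodTriples_subset (B : ℕ) : goodTriples B ⊆ (torsorPoints B).image torsorMap := by
  intro x hx
  obtain ⟨hx, ⟨t, ht⟩, hg⟩ := Finset.mem_filter.mp hx
  have hxB : ∀ i, 1 ≤ x i ∧ x i ≤ B := fun i => Finset.mem_Icc.mp (Fintype.mem_piFinset.mp hx i)
  obtain ⟨w, hw, hwx⟩ := exists_torsorMap_eq (fun i => (hxB i).1) ht hg
  refine Finset.mem_image.mpr ⟨w, Finset.mem_filter.mpr ⟨Fintype.mem_piFinset.mpr fun j =>
    Finset.mem_Icc.mpr ⟨hw j, ?_⟩, fun i => hwx ▸ (hxB i).2⟩, hwx⟩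
  obtain ⟨i, hi⟩ := expVec_ne_zero j
  calc w j ≤ w j ^ expVec j i := Nat.le_self_pow hi _
    _ ≤ torsorMap w i :=
      Nat.le_of_dvd (torsorMap_pos hw i)
        (Finset.dvd_prod_of_mem (fun l => w l ^ expVec l i) (Finset.mem_univ j))
    _ ≤ B := hwx ▸ (hxB i).2

theorem torsorPoints_subset (B : ℕ) :
    torsorPoints B ⊆ (boxIndex (Nat.log 2 B)).biUnion fun k =>
      Fintype.piFinset fun j => Finset.Ico (2 ^ k j) (2 ^ (k j + 1)) := fun w hw => by
  obtain ⟨hw, hB⟩ := Finset.mem_filter.mp hw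
  have hw1 : ∀ j, 1 ≤ w j ∧ w j ≤ B := fun j => Finset.mem_Icc.mp (Fintype.mem_piFinset.mp hw j)
  refine Finset.mem_biUnion.mpr ⟨fun j => Nat.log 2 (w j), Finset.mem_filter.mpr
    ⟨Fintype.mem_piFinset.mpr fun j =>
      Finset.mem_range.mpr (Nat.lt_succ_of_le (Nat.log_mono_right (hw1 j).2)), fun i => ?_⟩,
    Fintype.mem_piFinset.mpr fun j => Finset.mem_Ico.mpr
      ⟨Nat.pow_log_le_self 2 (Nat.one_le_iff_ne_zero.mp (hw1 j).1),
        Nat.lt_pow_succ_log_self one_lt_two _⟩⟩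
  refine Nat.le_log_of_pow_le one_lt_two (le_trans ?_ (hB i))
  rw [level, ← Finset.prod_pow_eq_pow_sum]
  refine Finset.prod_le_prod' fun j _ => ?_
  rw [mul_comm, pow_mul]
  exact Nat.pow_le_pow_left (Nat.pow_log_le_self 2 (Nat.one_le_iff_ne_zero.mp (hw1 j).1)) _

theorem level_zero (k : Fin 9 → ℕ) :
    level k 0 = 3 * k 0 + (2 * k 3 + k 4 + 2 * k 5 + k 6) := by
  simp [level, expVec, Fin.sum_univ_succ]
  ring

theorem level_one (k : Fin 9 → ℕ) :
    level k 1 = 3 * k 1 + (k 3 + 2 * k 4 + 2 * k 7 + k 8) := by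
  simp [level, expVec, Fin.sum_univ_succ]
  ring

theorem level_two (k : Fin 9 → ℕ) :
    level k 2 = 3 * k 2 + (k 5 + 2 * k 6 + k 7 + 2 * k 8) := by
  simp [level, expVec, Fin.sum_univ_succ]
  ring

/-- **The sum over the boxes.** -/
theorem sum_boxIndex_le (L : ℕ) :
    ∑ k ∈ boxIndex L, (2 : ℝ) ^ (∑ j, k j) ≤ 125 * 2 ^ L * ((L : ℝ) + 1) ^ 6 := by
  set φ : (Fin 9 → ℕ) → (Fin 6 → ℕ) × (Fin 3 → ℕ) := fun k =>
    (![k 3, k 4, k 5, k 6, k 7, k 8], fun i => L - level k i)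
  have hinj : Set.InjOn φ (boxIndex L) := fun k hk k' hk' he => by
    have h1 : ∀ i, level k i = level k' i := fun i => by
      have := congrFun (congrArg Prod.snd he) i
      have := (Finset.mem_filter.mp hk).2 i
      have := (Finset.mem_filter.mp hk').2 i
      simp only [φ] at *
      omega
    have hz : ∀ l : Fin 6, ![k 3, k 4, k 5, k 6, k 7, k 8] l =
        ![k' 3, k' 4, k' 5, k' 6, k' 7, k' 8] l := fun l => congrFun (congrArg Prod.fst he) l
    have z0 : k 3 = k' 3 := hz 0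
    have z1 : k 4 = k' 4 := hz 1
    have z2 : k 5 = k' 5 := hz 2
    have z3 : k 6 = k' 6 := hz 3
    have z4 : k 7 = k' 7 := hz 4
    have z5 : k 8 = k' 8 := hz 5
    have e0 := h1 0
    have e1 := h1 1
    have e2 := h1 2
    rw [level_zero, level_zero] at e0
    rw [level_one, level_one] at e1
    rw [level_two, level_two] at e2
    funext j
    fin_cases j <;> simp only [Fin.zero_eta, Fin.mk_one, Fin.reduceFinMk] <;> omega
  set g : (Fin 6 → ℕ) × (Fin 3 → ℕ) → ℝ := fun q => 2 ^ L * ∏ i, (4 / 5 : ℝ) ^ q.2 i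
  have hle : ∀ k ∈ boxIndex L, (2 : ℝ) ^ (∑ j, k j) ≤ g (φ k) := fun k hk => by
    have h := sum_level k
    rw [Fin.sum_univ_three] at h
    have h0 := (Finset.mem_filter.mp hk).2 0
    have h1 := (Finset.mem_filter.mp hk).2 1
    have h2 := (Finset.mem_filter.mp hk).2 2
    obtain ⟨t, ht⟩ : ∃ t, L = ∑ j, k j + t := ⟨L - ∑ j, k j, by omega⟩
    have hd : (L - level k 0) + (L - level k 1) + (L - level k 2) = 3 * t := by omega
    simp only [g, φ, Fin.prod_univ_three]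
    rw [← pow_add, ← pow_add, hd, ht, pow_add, mul_assoc, pow_mul, ← mul_pow]
    exact le_mul_of_one_le_right (by positivity) (one_le_pow₀ (by norm_num))
  have hmem : ∀ k ∈ boxIndex L, φ k ∈ (Fintype.piFinset fun _ : Fin 6 => Finset.range (L + 1)) ×ˢ
      (Fintype.piFinset fun _ : Fin 3 => Finset.range (L + 1)) := fun k hk => by
    have h := Fintype.mem_piFinset.mp (Finset.mem_filter.mp hk).1
    refine Finset.mem_product.mpr ⟨Fintype.mem_piFinset.mpr fun l => ?_,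
      Fintype.mem_piFinset.mpr fun i => Finset.mem_range.mpr (Nat.lt_succ_of_le (Nat.sub_le _ _))⟩
    fin_cases l <;> simp [φ] <;> exact Nat.lt_succ_iff.mp (Finset.mem_range.mp (h _))
  refine (Finset.sum_le_sum hle).trans ?_
  rw [← Finset.sum_image hinj]
  refine (Finset.sum_le_sum_of_subset_of_nonneg (Finset.image_subset_iff.mpr hmem)
    fun q _ _ => mul_nonneg (by positivity) (Finset.prod_nonneg fun i _ => by positivity)).trans ?_
  have hgeo : ∑ d ∈ Finset.range (L + 1), (4 / 5 : ℝ) ^ d ≤ 5 := by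
    refine ((summable_geometric_of_lt_one (by norm_num) (by norm_num)).sum_le_tsum _
      fun d _ => by positivity).trans_eq ?_
    rw [tsum_geometric_of_lt_one (by norm_num) (by norm_num)]
    norm_num
  rw [Finset.sum_product]
  simp only [g]
  rw [Finset.sum_const, Fintype.card_piFinset, Finset.prod_const,
    Finset.card_range, Finset.card_univ, Fintype.card_fin, nsmul_eq_mul, Nat.cast_pow,
    Nat.cast_add, Nat.cast_one]
  rw [← Finset.mul_sum, ← Finset.prod_univ_sum (fun _ => Finset.range (L + 1))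
    (fun _ d => (4 / 5 : ℝ) ^ d), Finset.prod_const, Finset.card_univ, Fintype.card_fin]
  calc ((L : ℝ) + 1) ^ 6 * (2 ^ L * (∑ d ∈ Finset.range (L + 1), (4 / 5 : ℝ) ^ d) ^ 3)
      ≤ ((L : ℝ) + 1) ^ 6 * (2 ^ L * 5 ^ 3) := by gcongr
    _ = 125 * 2 ^ L * ((L : ℝ) + 1) ^ 6 := by ring

/-- **Upper bound.** -/
theorem card_goodTriples_le {B : ℕ} (hB : 1 ≤ B) :
    ((goodTriples B).card : ℝ) ≤ 125 * B * ((Nat.log 2 B : ℝ) + 1) ^ 6 := by
  refine (Nat.cast_le.mpr (((Finset.card_le_card (goodTriples_subset B)).trans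
    Finset.card_image_le).trans ((Finset.card_le_card (torsorPoints_subset B)).trans
      Finset.card_biUnion_le))).trans ?_
  rw [Nat.cast_sum]
  refine le_trans (le_of_eq (Finset.sum_congr rfl fun k _ => ?_))
    ((sum_boxIndex_le (Nat.log 2 B)).trans ?_)
  · rw [Fintype.card_piFinset, Nat.cast_prod, ← Finset.prod_pow_eq_pow_sum]
    exact Finset.prod_congr rfl fun j _ => by
      rw [Nat.card_Ico, pow_succ, mul_two, Nat.add_sub_cancel]
      push_cast
      rfl
  · have h : ((2 ^ Nat.log 2 B : ℕ) : ℝ) ≤ (B : ℝ) :=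
      Nat.cast_le.mpr (Nat.pow_log_le_self 2 (by omega))
    push_cast at h
    gcongr

/-- The boxes of the lower bound. -/
def lowerIndex (L : ℕ) (z : Fin 6 → ℕ) : Fin 9 → ℕ :=
  ![(L - 9 - (2 * z 0 + z 1 + 2 * z 2 + z 3)) / 3, (L - 9 - (z 0 + 2 * z 1 + 2 * z 4 + z 5)) / 3,
    (L - 9 - (z 2 + 2 * z 3 + z 4 + 2 * z 5)) / 3, z 0, z 1, z 2, z 3, z 4, z 5]

theorem third_facts {L D S : ℕ} (hD : 60 * D ≤ L) (hS : S ≤ 12 * D) (hL : 100 ≤ L) :
    D ≤ (L - 9 - S) / 3 ∧ 3 * ((L - 9 - S) / 3) + S + 9 ≤ L ∧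
      L ≤ 3 * ((L - 9 - S) / 3) + S + 11 := by
  omega

theorem lowerIndex_facts {L : ℕ} {z : Fin 6 → ℕ} (hL : 100 ≤ L)
    (hz : ∀ l, L / 60 ≤ z l ∧ z l < 2 * (L / 60)) :
    (∀ j, L / 60 ≤ lowerIndex L z j) ∧ (∀ i, level (lowerIndex L z) i + 9 ≤ L) ∧
      L ≤ (∑ j, lowerIndex L z j) + 11 := by
  have hsum := sum_level (lowerIndex L z)
  rw [Fin.sum_univ_three] at hsum
  have hD : 60 * (L / 60) ≤ L := Nat.mul_div_le L 60
  obtain ⟨a0, b0⟩ := hz 0
  obtain ⟨a1, b1⟩ := hz 1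
  obtain ⟨a2, b2⟩ := hz 2
  obtain ⟨a3, b3⟩ := hz 3
  obtain ⟨a4, b4⟩ := hz 4
  obtain ⟨a5, b5⟩ := hz 5
  have f0 := third_facts (S := 2 * z 0 + z 1 + 2 * z 2 + z 3) hD (by linarith) hL
  have f1 := third_facts (S := z 0 + 2 * z 1 + 2 * z 4 + z 5) hD (by linarith) hL
  have f2 := third_facts (S := z 2 + 2 * z 3 + z 4 + 2 * z 5) hD (by linarith) hL
  have e0 : level (lowerIndex L z) 0 = 3 * ((L - 9 - (2 * z 0 + z 1 + 2 * z 2 + z 3)) / 3) +
      (2 * z 0 + z 1 + 2 * z 2 + z 3) := level_zero _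
  have e1 : level (lowerIndex L z) 1 = 3 * ((L - 9 - (z 0 + 2 * z 1 + 2 * z 4 + z 5)) / 3) +
      (z 0 + 2 * z 1 + 2 * z 4 + z 5) := level_one _
  have e2 : level (lowerIndex L z) 2 = 3 * ((L - 9 - (z 2 + 2 * z 3 + z 4 + 2 * z 5)) / 3) +
      (z 2 + 2 * z 3 + z 4 + 2 * z 5) := level_two _
  refine ⟨fun j => ?_, fun i => ?_, by linarith [f0.2.2, f1.2.2, f2.2.2]⟩
  · fin_cases j
    exacts [f0.1, f1.1, f2.1, a0, a1, a2, a3, a4, a5]
  · fin_cases i
    exacts [(Nat.add_le_add_right e0.le 9).trans f0.2.1,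
      (Nat.add_le_add_right e1.le 9).trans f1.2.1, (Nat.add_le_add_right e2.le 9).trans f2.2.1]

/-- **Lower bound.** -/
theorem exists_card_goodTriples_ge : ∃ c : ℝ, 0 < c ∧ ∀ᶠ B : ℕ in atTop,
    c * B * Real.log B ^ 6 ≤ (goodTriples B).card := by
  obtain ⟨c, hc, k₀, hk₀⟩ := exists_coprimeBox_bound (Fin 9)
  refine ⟨c / (2 ^ 12 * 120 ^ 6), by positivity, ?_⟩
  filter_upwards [eventually_ge_atTop (2 ^ (60 * k₀ + 300))] with B hB
  set L := Nat.log 2 B with hLdef
  have hB0 : B ≠ 0 := fun h => by simp [h] at hB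
  have hL : 60 * k₀ + 300 ≤ L := Nat.le_log_of_pow_le one_lt_two hB
  set Z := Fintype.piFinset fun _ : Fin 6 => Finset.Ico (L / 60) (2 * (L / 60))
  have hZ : ∀ z ∈ Z, ∀ l, L / 60 ≤ z l ∧ z l < 2 * (L / 60) := fun z hz l =>
    Finset.mem_Ico.mp (Fintype.mem_piFinset.mp hz l)
  set S := Z.biUnion fun z => coprimeBox (lowerIndex L z)
  have hdata : ∀ w ∈ S, (∀ j, 1 ≤ w j) ∧ (∀ i j, i ≠ j → (w i).Coprime (w j)) ∧
      ∀ i, torsorMap w i ≤ B := fun w hw => by
    obtain ⟨z, hz, hw⟩ := Finset.mem_biUnion.mp hw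
    obtain ⟨hI, hc⟩ := mem_coprimeBox.mp hw
    refine ⟨fun j => le_trans Nat.one_le_two_pow (hI j).1, hc, fun i => ?_⟩
    calc torsorMap w i ≤ ∏ j, (2 ^ (lowerIndex L z j + 1)) ^ expVec j i :=
          Finset.prod_le_prod' fun j _ => Nat.pow_le_pow_left (hI j).2.le _
      _ = 2 ^ (level (lowerIndex L z) i + 9) := by
          have he : level (lowerIndex L z) i + 9 =
              ∑ j, (lowerIndex L z j + 1) * expVec j i := by
            simp only [level, add_mul, one_mul, Finset.sum_add_distrib, sum_expVec_left]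
            exact congrArg (· + 9) (Finset.sum_congr rfl fun j _ => mul_comm _ _)
          rw [he, ← Finset.prod_pow_eq_pow_sum]
          exact Finset.prod_congr rfl fun j _ => (pow_mul _ _ _).symm
      _ ≤ 2 ^ L := Nat.pow_le_pow_right two_pos ((lowerIndex_facts (by omega) (hZ z hz)).2.1 i)
      _ ≤ B := Nat.pow_log_le_self 2 hB0
  have hcard : S.card ≤ (goodTriples B).card :=
    Finset.card_le_card_of_injOn torsorMap (fun w hw => by
      obtain ⟨h1, h2, h3⟩ := hdata w hw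
      exact Finset.mem_filter.mpr ⟨Fintype.mem_piFinset.mpr fun i =>
        Finset.mem_Icc.mpr ⟨torsorMap_pos h1 i, h3 i⟩, ⟨∏ j, w j, (prod_torsorMap w).symm⟩,
        fun p hp => exists_not_dvd_torsorMap h2 hp⟩) fun w hw w' hw' he =>
      torsorMap_injective (hdata w hw).1 (hdata w' hw').1 (hdata w hw).2.1 (hdata w' hw').2.1 he
  have hdisj : (Z : Set (Fin 6 → ℕ)).PairwiseDisjoint fun z => coprimeBox (lowerIndex L z) := by
    intro z _ z' _ hne
    refine Finset.disjoint_left.mpr fun w hw hw' => hne ?_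
    have hlog : ∀ (u : Fin 6 → ℕ) (j : Fin 9), w ∈ coprimeBox (lowerIndex L u) →
        Nat.log 2 (w j) = lowerIndex L u j := fun u j hu => by
      have := (mem_coprimeBox.mp hu).1 j
      exact Nat.log_eq_of_pow_le_of_lt_pow this.1 this.2
    have he : ∀ j, lowerIndex L z j = lowerIndex L z' j := fun j =>
      (hlog z j hw).symm.trans (hlog z' j hw')
    funext l
    fin_cases l
    exacts [he 3, he 4, he 5, he 6, he 7, he 8]
  have hlow : (L / 60 : ℕ) ^ 6 * (c * 2 ^ L / 2 ^ 11) ≤ (S.card : ℝ) := by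
    rw [Finset.card_biUnion hdisj, Nat.cast_sum]
    refine le_trans (le_of_eq ?_) (Finset.card_nsmul_le_sum Z _ (c * 2 ^ L / 2 ^ 11) fun z hz => ?_)
    · rw [Fintype.card_piFinset, Finset.prod_const, Finset.card_univ, Fintype.card_fin,
        Nat.card_Ico, nsmul_eq_mul, Nat.cast_pow, two_mul, Nat.add_sub_cancel]
    · obtain ⟨h1, -, h3⟩ := lowerIndex_facts (L := L) (by omega) (hZ z hz)
      refine le_trans ?_ (hk₀ _ fun j => le_trans (by omega) (h1 j))
      rw [mul_div_assoc]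
      refine mul_le_mul_of_nonneg_left ?_ hc.le
      rw [div_le_iff₀ (by positivity), ← pow_add]
      exact pow_le_pow_right₀ one_le_two h3
  have h2L : (B : ℝ) ≤ 2 * 2 ^ L := by
    have h : ((B : ℕ) : ℝ) ≤ ((2 ^ (L + 1) : ℕ) : ℝ) :=
      Nat.cast_le.mpr (Nat.lt_pow_succ_log_self one_lt_two B).le
    push_cast [pow_succ] at h
    linarith
  have hlogB : Real.log B ≤ 120 * ((L / 60 : ℕ) : ℝ) := by
    have h1 : Real.log B ≤ ((L + 1 : ℕ) : ℝ) * Real.log 2 := by
      rw [← Real.log_pow]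
      refine Real.log_le_log (Nat.cast_pos.mpr (Nat.pos_of_ne_zero hB0)) ?_
      rw [pow_succ]
      linarith
    have h2 : ((L + 1 : ℕ) : ℝ) * Real.log 2 ≤ ((L + 1 : ℕ) : ℝ) :=
      mul_le_of_le_one_right (Nat.cast_nonneg _) (by linarith [Real.log_two_lt_d9])
    have h3 : ((L + 1 : ℕ) : ℝ) ≤ ((120 * (L / 60) : ℕ) : ℝ) := Nat.cast_le.mpr (by omega)
    push_cast at h1 h2 h3
    linarith
  have hlog0 : 0 ≤ Real.log B := Real.log_natCast_nonneg B
  calc c / (2 ^ 12 * 120 ^ 6) * B * Real.log B ^ 6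
      ≤ c / (2 ^ 12 * 120 ^ 6) * (2 * 2 ^ L) * (120 * ((L / 60 : ℕ) : ℝ)) ^ 6 := by gcongr
    _ = (L / 60 : ℕ) ^ 6 * (c * 2 ^ L / 2 ^ 11) := by ring
    _ ≤ (S.card : ℝ) := hlow
    _ ≤ _ := Nat.cast_le.mpr hcard

end FA.ToricCubic
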